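import Fermat.Agent.LT.A2.Kernel

/-!
# Row LT, tower A2, leaf A2.08 `WhitExC` (helper581), OFF-MAIN

`WhitExC`: for good data `D` the Whittaker function (orbital integral over the norm-one torus)
exists, i.e. the integral does not depend on the choice of `m_g`.

Proof.  Two admissible `m_g`, `m_g'` for the same `g` differ by `c = m_g' m_g⁻¹ ∈ T¹(𝔸_K)`; the
torus is commutative, `μT` is carried by `T¹` and invariant under translation by `T¹`
(`KData.IsMeasured.carried`, `.inv`), so the change of variables `m ↦ c m` does not change the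
integral (no measurability of the integrand is needed: translation is a measurable equivalence).

Only `D.Good.measured.carried` and `D.Good.measured.inv` are used.
-/

set_option autoImplicit false
set_option linter.style.haveILetI false

open IsDedekindDomain NumberField AutomorphicForm MeasureTheory
open scoped MatrixGroups

noncomputable section

namespace Fermat.Agent.LT.A2.H581

open Fermat.Agent.LT.H130 Fermat.Agent.LT.H556 Fermat.Agent.LT.A2

/-! ## Algebra of the torus matrices -/

section TorMat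

variable {R : Type*} [CommRing R]

theorem torMat_mul581 (t n a b a' b' : R) :
    torMat t n a b * torMat t n a' b'
      = torMat t n (a * a' - n * (b * b')) (a * b' + b * a' + t * (b * b')) := by
  unfold torMat
  ext i j
  fin_cases i <;> fin_cases j <;> simp [Matrix.mul_apply, Fin.sum_univ_two] <;> ring

theorem torMat_comm581 (t n a b a' b' : R) :
    torMat t n a b * torMat t n a' b' = torMat t n a' b' * torMat t n a b := by
  rw [torMat_mul581, torMat_mul581]
  congr 1 <;> ring

theorem torMat_det581 (t n a b : R) :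
    (torMat t n a b).det = a * a + t * (a * b) + n * (b * b) := by
  unfold torMat
  rw [Matrix.det_fin_two_of]
  ring

end TorMat

section Torus

variable {K : Type} [Field K] [NumberField K]

theorem inTorus_mul581 {t n : K} {m m' : A0.G K} (h : InTorus t n m) (h' : InTorus t n m') :
    InTorus t n (m * m') := by
  obtain ⟨a, b, hm⟩ := h
  obtain ⟨a', b', hm'⟩ := h'
  refine ⟨a * a' - algebraMap K (A0.Adl K) n * (b * b'),
    a * b' + b * a' + algebraMap K (A0.Adl K) t * (b * b'), ?_⟩
  rw [Matrix.GeneralLinearGroup.coe_mul, hm, hm', torMat_mul581]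

theorem inTorus_comm581 {t n : K} {m m' : A0.G K} (h : InTorus t n m) (h' : InTorus t n m') :
    m * m' = m' * m := by
  obtain ⟨a, b, hm⟩ := h
  obtain ⟨a', b', hm'⟩ := h'
  apply Units.ext
  show (m : Matrix (Fin 2) (Fin 2) (A0.Adl K)) * (m' : Matrix (Fin 2) (Fin 2) (A0.Adl K))
    = (m' : Matrix (Fin 2) (Fin 2) (A0.Adl K)) * (m : Matrix (Fin 2) (Fin 2) (A0.Adl K))
  rw [hm, hm', torMat_comm581]

theorem inTorus_inv581 {t n : K} {m : A0.G K} (h : InTorus t n m) : InTorus t n m⁻¹ := by
  obtain ⟨a, b, hm⟩ := h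
  set T := algebraMap K (A0.Adl K) t with hT
  set N := algebraMap K (A0.Adl K) n with hN
  -- the determinant, a unit of the adele ring
  set d : (A0.Adl K)ˣ := Matrix.GeneralLinearGroup.det m with hd
  have hdval : (d : A0.Adl K) = a * a + T * (a * b) + N * (b * b) := by
    have h1 : (d : A0.Adl K) = (m : Matrix (Fin 2) (Fin 2) (A0.Adl K)).det := rfl
    rw [h1, hm, torMat_det581]
  have hdd : ((d⁻¹ : (A0.Adl K)ˣ) : A0.Adl K) * (a * a + T * (a * b) + N * (b * b)) = 1 := by
    rw [← hdval]
    exact Units.inv_mul d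
  refine ⟨((d⁻¹ : (A0.Adl K)ˣ) : A0.Adl K) * (a + T * b),
    -(((d⁻¹ : (A0.Adl K)ˣ) : A0.Adl K) * b), ?_⟩
  have key : torMat T N (((d⁻¹ : (A0.Adl K)ˣ) : A0.Adl K) * (a + T * b))
      (-(((d⁻¹ : (A0.Adl K)ˣ) : A0.Adl K) * b)) * (m : Matrix (Fin 2) (Fin 2) (A0.Adl K)) = 1 := by
    rw [hm, torMat_mul581]
    have e1 : ((d⁻¹ : (A0.Adl K)ˣ) : A0.Adl K) * (a + T * b) * a
        - N * (-(((d⁻¹ : (A0.Adl K)ˣ) : A0.Adl K) * b) * b) = 1 := by
      rw [← hdd]; ring
    have e2 : ((d⁻¹ : (A0.Adl K)ˣ) : A0.Adl K) * (a + T * b) * b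
        + -(((d⁻¹ : (A0.Adl K)ˣ) : A0.Adl K) * b) * a
        + T * (-(((d⁻¹ : (A0.Adl K)ˣ) : A0.Adl K) * b) * b) = 0 := by
      ring
    rw [e1, e2]
    unfold torMat
    ext i j
    fin_cases i <;> fin_cases j <;> simp
  exact Units.inv_eq_of_mul_eq_one_left key

theorem inTorus1_inv581 {t n : K} {m : A0.G K} (h : InTorus1 t n m) : InTorus1 t n m⁻¹ := by
  refine ⟨inTorus_inv581 h.1, ?_⟩
  rw [map_inv, h.2, inv_one]

/-- Two admissible partners of the same `g` differ by an element of the norm-one torus. -/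
theorem inTorus1_of_adm581 {t n : K} {g mg mg' : A0.G K} (h : Adm t n g mg)
    (h' : Adm t n g mg') : InTorus1 t n (mg' * mg⁻¹) := by
  refine ⟨inTorus_mul581 h'.1 (inTorus_inv581 h.1), ?_⟩
  rw [map_mul, map_inv, ← h'.2, ← h.2, mul_inv_cancel]

end Torus

/-! ## Invariance of the orbital integral -/

section Main

variable {K : Type} [Field K] [NumberField K]

/-- `μT` is invariant under left translation by the norm-one torus, as an image measure. -/
theorem map_mulLeft581 (D : KData K) (hM : D.IsMeasured) {c : A0.G K}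
    (hc : InTorus1 D.t D.n c) :
    @Measure.map (A0.G K) (A0.G K) (borel (A0.G K)) (borel (A0.G K))
      (fun m => c * m) D.μT = D.μT := by
  letI : MeasurableSpace (A0.G K) := borel (A0.G K)
  haveI : BorelSpace (A0.G K) := ⟨rfl⟩
  have hmeas : Measurable (fun m : A0.G K => c * m) := (continuous_const_mul c).measurable
  refine Measure.ext fun S hS => ?_
  rw [Measure.map_apply hmeas hS]
  have himg : (fun m : A0.G K => c * m) ⁻¹' S = (fun m : A0.G K => c⁻¹ * m) '' S := by
    have := Set.image_mul_left (a := c⁻¹) (t := S)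
    rw [inv_inv] at this
    exact this.symm
  rw [himg]
  exact hM.inv c⁻¹ (inTorus1_inv581 hc) S

/-- **Independence of `m_g`.** -/
theorem intT_indep581 (D : KData K) (hM : D.IsMeasured) {g mg mg' : A0.G K}
    (h : Adm D.t D.n g mg) (h' : Adm D.t D.n g mg') :
    D.intT {m | InTorus1 D.t D.n m} (fun m => D.F g (m * mg') (1, 0) * D.χT (m * mg'))
      = D.intT {m | InTorus1 D.t D.n m}
          (fun m => D.F g (m * mg) (1, 0) * D.χT (m * mg)) := by
  letI : MeasurableSpace (A0.G K) := borel (A0.G K)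
  haveI : BorelSpace (A0.G K) := ⟨rfl⟩
  have hae : ∀ᵐ m ∂D.μT, m ∈ {m | InTorus1 D.t D.n m} := by
    rw [ae_iff]
    exact hM.carried
  have hres : D.μT.restrict {m | InTorus1 D.t D.n m} = D.μT :=
    Measure.restrict_eq_self_of_ae_mem hae
  have hc : InTorus1 D.t D.n (mg' * mg⁻¹) := inTorus1_of_adm581 h h'
  show ∫ m in {m | InTorus1 D.t D.n m}, D.F g (m * mg') (1, 0) * D.χT (m * mg') ∂D.μT
    = ∫ m in {m | InTorus1 D.t D.n m}, D.F g (m * mg) (1, 0) * D.χT (m * mg) ∂D.μT
  rw [hres]
  have h1 : ∫ m, D.F g (m * mg') (1, 0) * D.χT (m * mg') ∂D.μT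
      = ∫ m, (fun x => D.F g (x * mg) (1, 0) * D.χT (x * mg)) ((mg' * mg⁻¹) * m) ∂D.μT := by
    apply integral_congr_ae
    filter_upwards [hae] with m hm
    have e : mg' * mg⁻¹ * m * mg = m * mg' := by
      rw [← inTorus_comm581 hm.1 hc.1]
      group
    simp only [e]
  rw [h1]
  have h2 := MeasureTheory.integral_map_equiv (μ := D.μT)
    ((Homeomorph.mulLeft (mg' * mg⁻¹)).toMeasurableEquiv)
    (fun x => D.F g (x * mg) (1, 0) * D.χT (x * mg))
  have h3 : Measure.map ((Homeomorph.mulLeft (mg' * mg⁻¹)).toMeasurableEquiv) D.μT = D.μT :=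
    map_mulLeft581 D hM hc
  rw [h3] at h2
  exact h2.symm

/-- **Leaf A2.08 `WhitExC`.** -/
theorem whitExC_h581 : WhitExC := by
  intro K _ _ D hG
  classical
  refine ⟨fun g => if h : InGPlus D.t D.n g then
      D.intT {m | InTorus1 D.t D.n m}
        (fun m => D.F g (m * h.choose) (1, 0) * D.χT (m * h.choose))
    else 0, ?_, ?_⟩
  · intro g mg hadm
    have hP : InGPlus D.t D.n g := ⟨mg, hadm⟩
    simp only [dif_pos hP]
    exact intT_indep581 D hG.measured hadm hP.choose_spec
  · intro g hg
    simp only [dif_neg hg]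

end Main

end Fermat.Agent.LT.A2.H581

end
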